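/-
Programme MW (S17), bricks INST-2b / INST-2c, part 1 (helper65): the Picard calculus instance and
the translation morphisms of a relative group law over a field.

* `picCalc` : programme AV's Picard group `AV.Pic38.Pic` as an instance of `AV.Cube82.PicCalc`
  (the abstract interface against which SQUARE and CUBE are proved in `AV/Cube82`);
* `comp_translate` : `y ≫ t_a = a + y` for every `T`-valued point `y`;
* `translate_comp_translate`, `isIso_translate` : translations are isomorphisms,
  `t_a ≫ t_b = t_{b + a}`;
* `ptOf`, `ptOf_comp_translate`, `ptOf_inv` : the action on the underlying points of `K`-points.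
-/
import Mathlib
import Fermat.Agent.AV.Cube82.Square
import Fermat.Agent.AV.PicDiv86.Cl
import Fermat.Agent.AV.PicDiv86.Symmetric

set_option autoImplicit false
set_option linter.style.haveILetI false

noncomputable section

universe u

open CategoryTheory CategoryTheory.Limits AlgebraicGeometry AlgebraicGeometry.RelPicard
  NeronModelInfra GoodReductionJacobian

namespace Fermat.Agent.MW.Inst65

open Fermat.Agent.AV.Cube82 Fermat.Agent.AV.Pic38 Fermat.Agent.AV.PicDiv86

/-- **The Picard calculus of programme AV** (`AV/Pic38`) as an instance of the abstract interface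
`AV.Cube82.PicCalc`. -/
def picCalc : PicCalc.{u + 1, u} where
  Pic := fun X => Pic X
  grp := fun _ => inferInstance
  map := fun f => Pic.map f
  map_id := fun X p => by rw [Pic.map_id]; rfl
  map_comp := fun f g p => Pic.map_comp_apply f g p
  cls := fun M hM => Pic.mk M hM
  cls_surjective := fun p => by
    induction p using Pic.ind with
    | _ M hM => exact ⟨M, hM, rfl⟩
  cls_eq_one_iff := fun _ hM => Pic.mk_eq_one_iff hM
  map_cls := fun _ _ _ => rfl

theorem picCalc_map {X Y : Scheme.{u}} (φ : X ⟶ Y) (p : Pic Y) :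
    picCalc.map φ p = Pic.map φ p := rfl

section Translate

variable {K : Type u} [Field K] {A : Scheme.{u}} {f : A ⟶ Spec (CommRingCat.of K)}
  (G : RelativeGroupLaw K f)

/-- The `K`-points of `A`. -/
abbrev KPt (f : A ⟶ Spec (CommRingCat.of K)) : Type u :=
  SchemeHomOver (𝟙 (Spec (CommRingCat.of K))) f

theorem constPt_comp {T T' : Scheme.{u}} (t : T ⟶ Spec (CommRingCat.of K))
    (t' : T' ⟶ Spec (CommRingCat.of K)) (ψ : T' ⟶ T) (hψ : ψ ≫ t = t') (a : KPt f) :
    schemeHomOverComp ψ hψ (constPt t a) = constPt t' a := by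
  apply Subtype.ext
  show ψ ≫ (t ≫ a.1) = t' ≫ a.1
  rw [← Category.assoc, hψ]

theorem constPt_id (a : KPt f) : constPt (𝟙 (Spec (CommRingCat.of K))) a = a := by
  apply Subtype.ext
  show 𝟙 _ ≫ a.1 = a.1
  exact Category.id_comp _

/-- `y ≫ t_a = a + y` for every `T`-valued point `y`. -/
theorem comp_translate {T : Scheme.{u}} (t : T ⟶ Spec (CommRingCat.of K)) (a : KPt f)
    (y : SchemeHomOver t f) : y.1 ≫ translate G a = (G.mul t (constPt t a) y).1 := by
  have h := G.mul_natural f t y.1 y.2 (constPt f a) RelativeGroupLaw.idPoint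
  have h1 : schemeHomOverComp y.1 y.2 (RelativeGroupLaw.idPoint (f := f)) = y :=
    Subtype.ext (Category.comp_id _)
  rw [constPt_comp, h1] at h
  exact congrArg Subtype.val h

/-- `x ≫ t_a = a + x` for `K`-points. -/
theorem comp_translate_KPt (a x : KPt f) :
    x.1 ≫ translate G a = (G.mul (𝟙 _) a x).1 := by
  have h := comp_translate G (𝟙 _) a x
  rwa [constPt_id] at h

theorem translate_over (a : KPt f) : translate G a ≫ f = f :=
  (G.mul f (constPt f a) RelativeGroupLaw.idPoint).2

/-- `t_a ≫ t_b = t_{b + a}`. -/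
theorem translate_comp_translate (a b : KPt f) :
    translate G a ≫ translate G b = translate G (G.mul (𝟙 _) b a) := by
  have h := comp_translate G f b ⟨translate G a, translate_over G a⟩
  rw [h]
  have h2 : (⟨translate G a, translate_over G a⟩ : SchemeHomOver f f) =
      G.mul f (constPt f a) RelativeGroupLaw.idPoint := rfl
  rw [h2, ← G.mul_assoc, ← constPt_mul]
  rfl

theorem translate_inv_comp (a : KPt f) :
    translate G (G.inv (𝟙 _) a) ≫ translate G a = 𝟙 A := by
  rw [translate_comp_translate, G.mul_inv_cancel, translate_one]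

theorem translate_comp_inv (a : KPt f) :
    translate G a ≫ translate G (G.inv (𝟙 _) a) = 𝟙 A := by
  rw [translate_comp_translate, G.inv_mul_cancel, translate_one]

instance isIso_translate (a : KPt f) : IsIso (translate G a) :=
  ⟨translate G (G.inv (𝟙 _) a), translate_comp_inv G a, translate_inv_comp G a⟩

/-- The underlying point of a `K`-point. -/
def ptOf (x : KPt f) : A := x.1 (IsLocalRing.closedPoint K)

theorem ptOf_comp (x : KPt f) (φ : A ⟶ A) (hφ : φ ≫ f = f) :
    ptOf (f := f) ⟨x.1 ≫ φ, by rw [Category.assoc, hφ, x.2]⟩ = φ (ptOf x) := rfl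

/-- `t_a (x) = a + x` on underlying points. -/
theorem translate_ptOf (a x : KPt f) :
    translate G a (ptOf x) = ptOf (G.mul (𝟙 _) a x) := by
  show (x.1 ≫ translate G a) (IsLocalRing.closedPoint K) = _
  rw [comp_translate_KPt]
  rfl

/-- `[-1] (x) = -x` on underlying points. -/
theorem negMor_ptOf (x : KPt f) : negMor G (ptOf x) = ptOf (G.inv (𝟙 _) x) := by
  have h := inv_natural G f (𝟙 _) x.1 x.2 RelativeGroupLaw.idPoint
  have h1 : schemeHomOverComp x.1 x.2 (RelativeGroupLaw.idPoint (f := f)) = x :=
    Subtype.ext (Category.comp_id _)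
  rw [h1] at h
  show (x.1 ≫ negMor G) (IsLocalRing.closedPoint K) = _
  have h2 : x.1 ≫ negMor G = (G.inv (𝟙 _) x).1 := congrArg Subtype.val h
  rw [h2]
  rfl

end Translate

end Fermat.Agent.MW.Inst65
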