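/-
Programme MW (S17), brick INST-2b, abstract form (helper65): **a finite family of rational
functions generating `O(2D)` on a commutative group variety**, from the theorem of the square.

Setting: `K` algebraically closed, `f : A ⟶ Spec K` locally of finite type with `A` integral and
quasi-compact, `G` a commutative group law on `A / K`, `D` an effective Cartier divisor whose
support is the complement of a nonempty open `U`, and the theorem of the square for `cl D` at every
`K`-point (`AV.Cube82.InS`; for a Jacobian this is `AV.Cube82.inS_sumPt_point` + Jacobi inversion).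

* `exists_div_translate` (SQUARE, divisor form): `t_a^* D · t_{-a}^* D = div h · D²`;
* `exists_KPt_mem_mem` : for every `K`-point `x` there is a `K`-point `a` with `a + x ∈ U` and
  `-a + x ∈ U` (two nonempty opens of an irreducible space meet, Jacobson);
* `exists_generates_sq` : finitely many of the functions `h_a` generate `O(D²)`
  (`MW.Inst73.Generates`), via `MW.Inst73.exists_generates_of_cover` and the reduction to closed
  points.
-/
import Mathlib
import Fermat.Agent.MW.Inst65.Translate
import Fermat.Agent.MW.Inst73.BasePointFree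
import Fermat.Agent.AV.ClosedPts31

set_option autoImplicit false
set_option linter.style.haveILetI false
set_option linter.unusedSectionVars false

noncomputable section

universe u

open CategoryTheory CategoryTheory.Limits AlgebraicGeometry AlgebraicGeometry.RelPicard
  NeronModelInfra GoodReductionJacobian TopologicalSpace

namespace Fermat.Agent.MW.Inst65

open Fermat.Agent.AV.Cube82 Fermat.Agent.AV.Pic38 Fermat.Agent.AV.PicDiv86
  Fermat.Agent.MW.Inst73 Fermat.Agent.AV.ClosedPts31

variable {K : Type u} [Field K] {A : Scheme.{u}} [IsIntegral A]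
  {f : A ⟶ Spec (CommRingCat.of K)} (G : RelativeGroupLaw K f) (hc : G.IsCommutative)

/-! ### SQUARE in divisor form -/

/-- **Theorem of the square, divisor form**: `t_a^* D · t_{-a}^* D = div h · D²`. -/
theorem exists_div_translate (D : CaDiv A) (a : KPt f)
    (ha : InS picCalc G hc (cl D) (𝟙 _) a) :
    ∃ h : A.functionFieldˣ,
      CaDiv.pullback (translate G a) D * CaDiv.pullback (translate G (G.inv (𝟙 _) a)) D =
        CaDiv.div h * (D * D) := by
  rw [← cl_eq_cl_iff, map_mul, map_mul, ← map_cl, ← map_cl]
  have h := translate_mul_translate_inv picCalc G hc (cl D) a ha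
  exact h.trans (pow_two (cl D))

/-! ### Finding a translation which moves a point into `U` in both directions -/

section Points

variable [IsAlgClosed K] [LocallyOfFiniteType f]

/-- Every nonempty open subset of `A` contains the underlying point of a `K`-point. -/
theorem exists_KPt_mem (W : A.Opens) (hW : (W : Set A).Nonempty) :
    ∃ a : KPt f, ptOf a ∈ W := by
  have : JacobsonSpace A := LocallyOfFiniteType.jacobsonSpace f
  obtain ⟨p, hpW, hp⟩ := nonempty_inter_closedPoints (Z := (W : Set A)) hW
    W.isOpen.isLocallyClosed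
  obtain ⟨x, hx, hxp⟩ := exists_Kpoint_of_isClosed f p hp
  exact ⟨⟨x, hx⟩, by show x (IsLocalRing.closedPoint K) ∈ W; rw [hxp]; exact hpW⟩

include hc in
/-- For every `K`-point `x` there is a `K`-point `a` such that `a + x` and `-a + x` lie in the
nonempty open `U`. -/
theorem exists_KPt_mem_mem (U : A.Opens) (hU : (U : Set A).Nonempty) (x : KPt f) :
    ∃ a : KPt f, translate G a (ptOf x) ∈ U ∧
      translate G (G.inv (𝟙 _) a) (ptOf x) ∈ U := by
  -- the two opens `{a | x + a ∈ U}` and `{a | x - a ∈ U}`
  let O₁ : A.Opens := (translate G x) ⁻¹ᵁ U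
  let O₂ : A.Opens := (negMor G ≫ translate G x) ⁻¹ᵁ U
  have hsurj : ∀ (φ : A ⟶ A) [IsIso φ], Function.Surjective φ := fun φ _ =>
    (Scheme.homeoOfIso (asIso φ)).surjective
  have hO₁ : (O₁ : Set A).Nonempty := by
    obtain ⟨u, hu⟩ := hU
    obtain ⟨v, hv⟩ := hsurj (translate G x) u
    exact ⟨v, by show translate G x v ∈ U; rw [hv]; exact hu⟩
  have hO₂ : (O₂ : Set A).Nonempty := by
    obtain ⟨u, hu⟩ := hU
    obtain ⟨v, hv⟩ := hsurj (negMor G ≫ translate G x) u
    exact ⟨v, by show (negMor G ≫ translate G x) v ∈ U; rw [hv]; exact hu⟩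
  have hne : ((O₁ ⊓ O₂ : A.Opens) : Set A).Nonempty :=
    nonempty_preirreducible_inter O₁.2 O₂.2 hO₁ hO₂
  obtain ⟨a, ha⟩ := exists_KPt_mem (f := f) (O₁ ⊓ O₂) hne
  refine ⟨a, ?_, ?_⟩
  · have h1 : translate G x (ptOf a) ∈ U := ha.1
    rw [translate_ptOf] at h1 ⊢
    rwa [hc (𝟙 _) a x]
  · have h2 : (negMor G ≫ translate G x) (ptOf a) ∈ U := ha.2
    have h3 : (negMor G ≫ translate G x) (ptOf a) = translate G x (negMor G (ptOf a)) := rfl
    rw [h3, negMor_ptOf, translate_ptOf] at h2
    rw [translate_ptOf]
    rwa [hc (𝟙 _) (G.inv (𝟙 _) a) x]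

end Points

/-! ### The generating family -/

variable [IsAlgClosed K] [LocallyOfFiniteType f] [CompactSpace A]

include hc in
/-- **A finite generating family for `O(D²)`** on a commutative group variety, from the theorem of
the square: the functions `h_a` with `t_a^* D · t_{-a}^* D = div h_a · D²`. -/
theorem exists_generates_sq (D : CaDiv A) (hD : D.IsEffective) (U : A.Opens)
    (hU : (U : Set A).Nonempty) (hsupp : D.support = (U : Set A)ᶜ)
    (hS : ∀ a : KPt f, InS picCalc G hc (cl D) (𝟙 _) a) :
    ∃ (n : ℕ) (s : Fin n → A.functionField), Generates s (D * D) := by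
  have : JacobsonSpace A := LocallyOfFiniteType.jacobsonSpace f
  -- the divisor `E_a = t_a^* D · t_{-a}^* D` and the open set `V_a` where it is trivial
  let E : KPt f → CaDiv A := fun a =>
    CaDiv.pullback (translate G a) D * CaDiv.pullback (translate G (G.inv (𝟙 _) a)) D
  have hEeff : ∀ a, (E a).IsEffective := fun a => hD.pullback.mul hD.pullback
  have hEsupp : ∀ a (x : A), x ∈ (E a).support →
      translate G a x ∉ U ∨ translate G (G.inv (𝟙 _) a) x ∉ U := by
    intro a x hx
    rcases CaDiv.support_mul_subset _ _ hx with h | h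
    · left
      have := CaDiv.support_pullback_subset (translate G a) D h
      rw [Set.mem_preimage, hsupp] at this
      exact this
    · right
      have := CaDiv.support_pullback_subset (translate G (G.inv (𝟙 _) a)) D h
      rw [Set.mem_preimage, hsupp] at this
      exact this
  -- the closed set of points not covered by any `V_a`
  let Z : Set A := ⋂ a : KPt f, (E a).support
  have hZclosed : IsClosed Z := isClosed_iInter fun a => CaDiv.isClosed_support (E a)
  have hZempty : Z = ∅ := by
    by_contra hne
    have hne' : Z.Nonempty := Set.nonempty_iff_ne_empty.2 hne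
    obtain ⟨p, hpZ, hp⟩ := nonempty_inter_closedPoints (Z := Z) hne' hZclosed.isLocallyClosed
    obtain ⟨x, hx, hxp⟩ := exists_Kpoint_of_isClosed f p hp
    obtain ⟨a, ha1, ha2⟩ := exists_KPt_mem_mem G hc U hU ⟨x, hx⟩
    have hpa : p ∈ (E a).support := Set.mem_iInter.1 hpZ a
    have hpt : ptOf (f := f) ⟨x, hx⟩ = p := hxp
    rw [hpt] at ha1 ha2
    rcases hEsupp a p hpa with h | h
    · exact h ha1
    · exact h ha2
  refine exists_generates_of_cover (D * D) fun x => ?_
  have hx : x ∉ Z := by rw [hZempty]; exact Set.notMem_empty x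
  obtain ⟨a, ha⟩ : ∃ a : KPt f, x ∉ (E a).support := by
    by_contra hcon
    exact hx (Set.mem_iInter.2 fun a => by_contra fun h => hcon ⟨a, h⟩)
  obtain ⟨h, hh⟩ := exists_div_translate G hc D a (hS a)
  exact ⟨E a, h, hEeff a, hh, ha⟩

end Fermat.Agent.MW.Inst65
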