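/-
Programme MW (S17), brick INST-2c, abstract form (helper65): **the `square` and `cube` fields of
`MW.GeomCore`** for a commutative group variety with a symmetric effective divisor `D`, from the
Picard-group forms of programme AV (`AV/Cube82`: `translate_mul_translate_inv`,
`pow_map_schemeNsmul`), through `AV.PicDiv86.cl` (kernel = principal divisors) and
`MW.Inst73.sectionsOf_square / sectionsOf_cube`.

* `inS_of_isDominant` : if the sum map of a list of pointed curves with representable Picard
  functors is dominant and universally closed, every `K`-point satisfies the functorial theorem of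
  the square;
* `pic_cube` : `([2]^* cl D)^δ = (cl D)^(4δ)` for symmetric `D` (`δ` from Lemma D);
* `exists_sectionsOf_square`, `exists_sectionsOf_cube` : the family forms for a family `s`
  generating `O(D²)`;
* `exists_family_square_cube` : the package `(s, gen, square, cube)` in exactly the shape of
  `MW.GeomCore` (with `transl a = translate G a`, `dbl = G.schemeNsmul 2`).
-/
import Mathlib
import Fermat.Agent.MW.Inst65.Family
import Fermat.Agent.AV.Cube82.Formula

set_option autoImplicit false
set_option linter.style.haveILetI false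
set_option linter.unusedSectionVars false

noncomputable section

universe u

open CategoryTheory CategoryTheory.Limits AlgebraicGeometry AlgebraicGeometry.RelPicard
  NeronModelInfra GoodReductionJacobian TopologicalSpace

namespace Fermat.Agent.MW.Inst65

open Fermat.Agent.AV.Cube82 Fermat.Agent.AV.Pic38 Fermat.Agent.AV.PicDiv86
  Fermat.Agent.MW.Inst73 Fermat.Agent.AV.ClosedPts31 Fermat.Agent.AV.Curv33
  Fermat.Agent.MW.HM73

variable {K : Type u} [Field K] {A : Scheme.{u}} [IsIntegral A]
  {f : A ⟶ Spec (CommRingCat.of K)} (G : RelativeGroupLaw K f) (hc : G.IsCommutative)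

/-! ### SQUARE and CUBE for the divisor `D * D` -/

/-- SQUARE for `D²` from SQUARE for `D`. -/
theorem square_sq {D : CaDiv A} {a b : A ⟶ A} [IsDominant a] [IsDominant b]
    {h : A.functionFieldˣ}
    (hsq : CaDiv.pullback a D * CaDiv.pullback b D = CaDiv.div h * (D * D)) :
    CaDiv.pullback a (D * D) * CaDiv.pullback b (D * D) =
      CaDiv.div (h * h) * ((D * D) * (D * D)) := by
  rw [map_mul, map_mul, map_mul, mul_mul_mul_comm, hsq, mul_mul_mul_comm]

/-- CUBE for `D²` from CUBE for `D`. -/
theorem cube_sq {D : CaDiv A} {g : A ⟶ A} [IsDominant g] {h : A.functionFieldˣ} {d m : ℕ}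
    (hcube : CaDiv.pullback g D ^ d = CaDiv.div h * D ^ m) :
    CaDiv.pullback g (D * D) ^ d = CaDiv.div (h * h) * (D * D) ^ m := by
  rw [map_mul, map_mul, mul_pow, hcube, mul_mul_mul_comm, mul_pow]

include hc in
/-- **SQUARE, family form**, for a family generating `O(D²)`. -/
theorem exists_sectionsOf_square {ι : Type*} {s : ι → A.functionField} {D : CaDiv A}
    (hs : Generates s (D * D)) (a : KPt f) (ha : InS picCalc G hc (cl D) (𝟙 _) a) :
    ∃ φ : A.functionField, φ ≠ 0 ∧
      SectionsOf (fun p : ι × ι => functionFieldMap (translate G a) (s p.1) *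
          functionFieldMap (translate G (G.inv (𝟙 _) a)) (s p.2))
        (fun p : ι × ι => φ * (s p.1 * s p.2)) ∧
      SectionsOf (fun p : ι × ι => φ * (s p.1 * s p.2))
        (fun p : ι × ι => functionFieldMap (translate G a) (s p.1) *
          functionFieldMap (translate G (G.inv (𝟙 _) a)) (s p.2)) := by
  obtain ⟨h, hh⟩ := exists_div_translate G hc D a ha
  have key := sectionsOf_square hs (translate G a) (translate G (G.inv (𝟙 _) a)) (h * h)
    (square_sq hh)
  exact ⟨(((h * h)⁻¹ : A.functionFieldˣ) : A.functionField), Units.ne_zero _, key.1, key.2⟩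

/-- CUBE, divisor form, from the Picard form. -/
theorem exists_div_cube (D : CaDiv A) (g : A ⟶ A) [IsDominant g] (d m : ℕ)
    (hpic : Pic.map g (cl D) ^ d = cl D ^ m) :
    ∃ h : A.functionFieldˣ, CaDiv.pullback g D ^ d = CaDiv.div h * D ^ m := by
  rw [← cl_eq_cl_iff, map_pow, map_pow, ← map_cl]
  exact hpic

/-- **CUBE, family form**, for a family generating `O(D²)`. -/
theorem exists_sectionsOf_cube {ι : Type*} {s : ι → A.functionField} {D : CaDiv A}
    (hs : Generates s (D * D)) (g : A ⟶ A) [IsDominant g] (δ : ℕ) (hδ : 0 < δ)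
    (hpic : Pic.map g (cl D) ^ δ = cl D ^ (δ * 2 ^ 2)) :
    ∃ (d : ℕ) (ψ : A.functionField), 0 < d ∧ ψ ≠ 0 ∧
      SectionsOf (fun i : ι => functionFieldMap g (s i) ^ d)
        (fun i : ι => ψ * s i ^ (4 * d)) ∧
      SectionsOf (fun i : ι => ψ * s i ^ (4 * d))
        (fun i : ι => functionFieldMap g (s i) ^ d) := by
  have hpic' : Pic.map g (cl D) ^ δ = cl D ^ (4 * δ) := by
    rw [hpic]; congr 1; ring
  obtain ⟨h, hh⟩ := exists_div_cube D g δ (4 * δ) hpic'
  have key := sectionsOf_cube hs g δ (4 * δ) (h * h) (cube_sq hh)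
  exact ⟨δ, (((h * h)⁻¹ : A.functionFieldˣ) : A.functionField), hδ, Units.ne_zero _,
    key.1, key.2⟩

/-! ### The inputs from the list of curves -/

section Curves

variable [IsAlgClosed K] [IsProper f] [IsIntegral (pullback f f)]
  (l : List (CurveTo f (G.one (𝟙 (Spec (CommRingCat.of K))))))
  (hrep : ∀ X ∈ l, ∃ (D : RelativePic0Designation K X.c)
      (_ : RepresentsRelSubPic X.c X.ε (algEquivZeroCut X.c X.ε) D),
      IsSeparated D.toBase ∧ LocallyOfFiniteType D.toBase)

include hc hrep in
/-- If the sum map of the curves is surjective on `K`-points, every `K`-point satisfies the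
functorial theorem of the square. -/
theorem inS_of_lift (ℓ : Pic A)
    (hlift : ∀ a : KPt f, ∃ w : SchemeHomOver (𝟙 (Spec (CommRingCat.of K))) (prodHom l),
      w.1 ≫ sumMap G l = a.1) (a : KPt f) :
    InS picCalc G hc ℓ (𝟙 _) a := by
  obtain ⟨w, hw⟩ := hlift a
  have h := inS_sumPt_point picCalc G hc ℓ l hrep w
  have e : schemeHomOverComp w.1 w.2 (sumPt G l) = a := Subtype.ext hw
  rwa [e] at h

include hc hrep in
/-- `([2]^* cl D)^δ = (cl D)^(4δ)` for a symmetric divisor `D`, `δ` as in Lemma D. -/
theorem pic_cube (D : CaDiv A) (hsym : CaDiv.pullback (negMor G) D = D) (δ : ℕ)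
    (hnorm : ∀ M : Pic A, Pic.map (sumMap G l) M = 1 → M ^ δ = 1) (n : ℕ) :
    Pic.map (G.schemeNsmul n) (cl D) ^ δ = cl D ^ (δ * n ^ 2) := by
  have hsym' : picCalc.map (G.inv f RelativeGroupLaw.idPoint).1 (cl D) = cl D := by
    rw [picCalc_map]
    show Pic.map (negMor G) (cl D) = cl D
    rw [map_cl, hsym]
  exact pow_map_schemeNsmul picCalc G hc (cl D) l hrep δ hnorm hsym' n

end Curves

/-! ### The package -/

variable [IsAlgClosed K] [LocallyOfFiniteType f] [CompactSpace A]

include hc in
/-- **The family, SQUARE and CUBE** for a commutative group variety `A / K` with an effective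
divisor `D` whose support is the complement of a nonempty open, given the functorial theorem of the
square at all `K`-points and the Picard form of CUBE for `[2]`: exactly the fields `s`, `gen`,
`square`, `cube` of `MW.GeomCore` (with `transl a = translate G a`, `dbl = G.schemeNsmul 2`). -/
theorem exists_family_square_cube (D : CaDiv A) (hD : D.IsEffective) (U : A.Opens)
    (hU : (U : Set A).Nonempty) (hsupp : D.support = (U : Set A)ᶜ)
    (hS : ∀ a : KPt f, InS picCalc G hc (cl D) (𝟙 _) a)
    [IsDominant (G.schemeNsmul 2)] (δ : ℕ) (hδ : 0 < δ)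
    (hpic : Pic.map (G.schemeNsmul 2) (cl D) ^ δ = cl D ^ (δ * 2 ^ 2)) :
    ∃ (n : ℕ) (s : Fin n → A.functionField), SectionsOf s s ∧
      (∀ a : KPt f, ∃ φ : A.functionField, φ ≠ 0 ∧
        SectionsOf (fun p : Fin n × Fin n => functionFieldMap (translate G a) (s p.1) *
            functionFieldMap (translate G (G.inv (𝟙 _) a)) (s p.2))
          (fun p : Fin n × Fin n => φ * (s p.1 * s p.2)) ∧
        SectionsOf (fun p : Fin n × Fin n => φ * (s p.1 * s p.2))
          (fun p : Fin n × Fin n => functionFieldMap (translate G a) (s p.1) *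
            functionFieldMap (translate G (G.inv (𝟙 _) a)) (s p.2))) ∧
      ∃ (d : ℕ) (ψ : A.functionField), 0 < d ∧ ψ ≠ 0 ∧
        SectionsOf (fun i : Fin n => functionFieldMap (G.schemeNsmul 2) (s i) ^ d)
          (fun i : Fin n => ψ * s i ^ (4 * d)) ∧
        SectionsOf (fun i : Fin n => ψ * s i ^ (4 * d))
          (fun i : Fin n => functionFieldMap (G.schemeNsmul 2) (s i) ^ d) := by
  obtain ⟨n, s, hs⟩ := exists_generates_sq G hc D hD U hU hsupp hS
  exact ⟨n, s, hs.sectionsOf_self, fun a => exists_sectionsOf_square G hc hs a (hS a),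
    exists_sectionsOf_cube hs (G.schemeNsmul 2) δ hδ hpic⟩

end Fermat.Agent.MW.Inst65
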